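import Fermat.Agent.BAD.AtP.Class.Series
import Fermat.Agent.BAD.TwoP.Deep
import Fermat.Agent.BAD.SerPS

/-!
# The classes of eigenvectors and their logarithmic derivatives

The logarithmic derivative of the residual series of the `p`-th power of a form with multiplier the
character of an eigenvector is an eigen series of weight two; when it vanishes the classes of the
iterates of `U` are trivial at `∞`.
-/

set_option autoImplicit false

open UpperHalfPlane CongruenceSubgroup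
open scoped MatrixGroups ModularForm Matrix

noncomputable section

namespace FermatAgent.BAD.AtP

open FermatAgent.ES (HasExp HasLExp CPlace IsTwist IsParChar parGroup zetaC AuxLevel heckeChar
  SerIn goodLevel_Gamma0 hasExp_transferT)
open FermatAgent.Period (parRank parabolicCoords transferDataU)
open FermatAgent.PSEMI (cv Cgr matU IsLevel TrivVec stableCoeffs Nice red rd killsPm_of_parGroup)

variable {p : ℕ} [hp : Fact p.Prime]

theorem cv_matT_char {N : ℕ} [NeZero N] (ℓ : ℕ) (hℓ : ℓ.Prime) (k : ℕ)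
    (v : Fin (parRank (Gamma0 N)) → ℤ_[p]) :
    (cv p k (matT p N ℓ hℓ *ᵥ v) : Gamma0 N →* ℂˣ) =
      heckeChar N hℓ (cv p k v : Gamma0 N →* ℂˣ) := by
  obtain ⟨ψ, rfl⟩ := (parabolicCoords (Gamma0 N) ℤ_[p] ℤ_[p]).surjective v
  rw [cv, cv, matT, ES.heckePadMat_mulVec, LinearEquiv.symm_apply_apply,
    LinearEquiv.symm_apply_apply,
    show FermatAgent.Period.parAction N ∅ ℤ_[p] ℤ_[p]
        ⟨_, MF.heckeAt_mem hℓ (Set.notMem_empty ℓ)⟩ ψ =
      ⟨FermatAgent.Period.heckeOp ℤ_[p] N hℓ ψ.1,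
        FermatAgent.Period.isParabolicHom_heckeOp ℤ_[p] hℓ ψ.2⟩ from
      Subtype.ext (FermatAgent.Period.parAction_heckeAt ℤ_[p] ℤ_[p] hℓ (Set.notMem_empty ℓ) ψ),
    ES.padChar_heckeOp]

theorem cv_natCast_smul {N : ℕ} [NeZero N] (b : ℕ) (v : Fin (parRank (Gamma0 N)) → ℤ_[p]) :
    cv p 1 ((b : ℤ_[p]) • v) = cv p 1 v ^ b := by
  rw [PSEMI.cv_smul, map_natCast, ZMod.val_natCast]
  exact (pow_eq_pow_mod b (Subtype.ext (cv p 1 v).2.1)).symm

theorem natCast_residue_eq_zero (P : CPlace p) : (p : IsLocalRing.ResidueField P.ring) = 0 := by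
  have := ES.charP_residueField hp.out P
  exact CharP.cast_eq_zero _ p

section Supp

variable {P : CPlace p}

section

omit hp

/-- A series with a unit coefficient which is a multiple of a nice one is a multiple by an
integer. -/
theorem mem_ring_of_nice {K : PSEMI.Coeffs P} {x t : LaurentSeries ℂ} {u : ℂ}
    (hx : SerIn P.ring x) (ht : Nice K t) (h : x = HahnSeries.C u * t) : u ∈ P.ring := by
  obtain ⟨i, hi⟩ := ht.2
  have h1 := hx i
  rw [h, HahnSeries.C_apply, HahnSeries.coeff_single_mul, sub_zero, CPlace.mem_ring, map_mul, hi,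
    mul_one] at h1
  exact h1

theorem res_eq_zero_of_red {X : PowerSeries P.ring} {e : ℕ}
    (h : (red (P := P) (HahnSeries.ofPowerSeries ℤ ℂ (X.map P.ring.subtype))).coeff (e : ℤ) = 0) :
    P.res (PowerSeries.coeff e X) = 0 := by
  rw [PSEMI.coeff_red (SerIn.ofPowerSeries X), PSEMI.rd_eq_zero_iff] at h
  rw [P.res_eq_zero_iff]
  simpa using h

theorem red_coeff_of_res {X : PowerSeries P.ring} {e : ℕ} (h : P.res (PowerSeries.coeff e X) = 0) :
    (red (P := P) (HahnSeries.ofPowerSeries ℤ ℂ (X.map P.ring.subtype))).coeff (e : ℤ) = 0 := by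
  rw [PSEMI.coeff_red (SerIn.ofPowerSeries X), PSEMI.rd_eq_zero_iff]
  rw [P.res_eq_zero_iff] at h
  simpa using h

end

variable {K : PSEMI.Coeffs P} {M m : ℕ} [NeZero M] (hM : M.Coprime p) {Γ Γ' : Subgroup SL(2, ℤ)}
  (hΓ : IsLevel p M Γ Γ') (haux : AuxLevel M m)

include K hM hΓ haux in
/-- **A multiple of the `p`-th power of a form with trivial multiplier is residually a series in
`q ^ p`.** -/
theorem res_eq_zero_of_trivChar {j : ℕ} {w : ℍ → ℂ} (hw : IsTwist Γ ((2 * j : ℕ) : ℤ) 1 w)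
    {s : PowerSeries ℂ} (hs : HasExp 1 w s) {X : PowerSeries P.ring} {a : ℂ}
    (hX : X.map P.ring.subtype = PowerSeries.C a * s ^ p) {e : ℕ} (he : ¬ p ∣ e) :
    P.res (PowerSeries.coeff e X) = 0 := by
  set sL := HahnSeries.ofPowerSeries ℤ ℂ s
  have hXL : HahnSeries.ofPowerSeries ℤ ℂ (X.map P.ring.subtype) = HahnSeries.C a * sL ^ p := by
    rw [hX, map_mul, map_pow, HahnSeries.ofPowerSeries_C]
  rcases eq_or_ne sL 0 with h0 | h0
  · refine res_eq_zero_of_red ?_
    rw [hXL, h0, zero_pow hp.out.ne_zero, mul_zero, PSEMI.red_zero, HahnSeries.coeff_zero]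
  obtain ⟨b, hb, hfine⟩ := PSEMI.exists_bound hM hΓ haux (K := K) (fun _ _ => rfl) hw
    (fun _ _ => one_pow _) (HasLExp.of_exp hs)
  obtain ⟨c, hc, hnice⟩ := PSEMI.exists_nice_smul h0 hb hfine
  have hXt : HahnSeries.ofPowerSeries ℤ ℂ (X.map P.ring.subtype) =
      HahnSeries.C (a / c ^ p) * (HahnSeries.C c * sL) ^ p := by
    rw [hXL, mul_pow, ← map_pow (HahnSeries.C (Γ := ℤ) (R := ℂ)), ← mul_assoc, ← map_mul,
      div_mul_cancel₀ _ (pow_ne_zero p hc)]
  have hu := mem_ring_of_nice (SerIn.ofPowerSeries X) (hnice.pow p) hXt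
  refine res_eq_zero_of_red ?_
  rw [hXt, PSEMI.red_mul (SerIn.C hu) (hnice.serIn.pow p), PSEMI.red_C hu,
    PSEMI.red_pow hnice.serIn, HahnSeries.C_apply, HahnSeries.coeff_single_mul, sub_zero,
    PSEMI.coeff_eq_zero_of_pow _ (fun h => he (Int.natCast_dvd_natCast.1 h)), mul_zero]

end Supp

section Classes

variable {L : ℕ} [NeZero L] [NeZero (L * p)] (hp2 : p ≠ 2) (hLp : L.Coprime p)

omit [NeZero (L * p)] in
include hp2 hLp in
theorem exists_levels : ∃ M : ℕ, ∃ (_ : NeZero M) (_ : M.Coprime p),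
    IsLevel p M (Gamma0 (L * p)) (Gamma0 L) ∧ AuxLevel M 2 := by
  have : NeZero (4 * L) := ⟨mul_ne_zero (by norm_num) (NeZero.ne L)⟩
  have hM : (4 * L).Coprime p := Nat.Coprime.mul_left
    (Nat.Coprime.pow_left 2 ((Nat.coprime_primes Nat.prime_two hp.out).2 hp2.symm)) hLp
  exact ⟨4 * L, inferInstance, hM, isLevel_gamma0 hM (dvd_mul_left L 4),
    Or.inl rfl, ⟨2 * L, by ring⟩, by have := NeZero.pos L; omega⟩

variable {Φ : ℂ ≃+* PadicAlgCl p} {z : Fin (parRank (Gamma0 (L * p))) → ℤ_[p]} {v : ℍ → ℂ}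
  (hv : IsTwist (Gamma0 (L * p)) ((2 * 2 : ℕ) : ℤ) (cv p 1 z : Gamma0 (L * p) →* ℂˣ) v)
  {C : ℂ} {cQ : PowerSeries (CPlace.ofEquiv Φ).ring}
  (hcQ : HasExp 1 (fun τ => C * v τ ^ p) (cQ.map (CPlace.ofEquiv Φ).ring.subtype))
  (hcQ0 : cQ.map (CPlace.ofEquiv Φ).res ≠ 0)

omit [NeZero L] in
include hv hcQ in
/-- The residual series is, up to a constant, the `p`-th power of a series which is the expansion
of the form at `∞`. -/
theorem exists_series_root : ∃ c : PowerSeries ℂ, HasExp 1 v c ∧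
    cQ.map (CPlace.ofEquiv Φ).ring.subtype = PowerSeries.C C * c ^ p :=
  have hc : HasExp 1 v (qExpansion ((1 : ℕ) : ℝ) v) :=
    ES.hasExp_one_twist (goodLevel_Gamma0 (L * p)).T_mem (cv p 1 z).2.2 hv
  ⟨_, hc, hcQ.series_unique (((hc.pow p).smul C).congr_fun fun _ => rfl)⟩

include hp2 hLp hv hcQ hcQ0 in
/-- **The logarithmic derivative of the residual series is an eigen series.** -/
theorem eigen_log (ℓ : ℕ) (hℓ : ℓ.Prime) (hℓN : ¬ ℓ ∣ L * p) (b : ℕ)
    (hb : Cgr 1 (matT p (L * p) ℓ hℓ *ᵥ z) ((b : ℤ_[p]) • z)) (n : ℤ) :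
    heckeC ℓ
        (thetaSer (HahnSeries.ofPowerSeries ℤ _ (cQ.map (CPlace.ofEquiv Φ).res)) /
          HahnSeries.ofPowerSeries ℤ _ (cQ.map (CPlace.ofEquiv Φ).res)) n =
      (b : IsLocalRing.ResidueField (CPlace.ofEquiv Φ).ring) *
        (thetaSer (HahnSeries.ofPowerSeries ℤ _ (cQ.map (CPlace.ofEquiv Φ).res)) /
          HahnSeries.ofPowerSeries ℤ _ (cQ.map (CPlace.ofEquiv Φ).res)).coeff n := by
  have := Fact.mk hℓ
  have : NeZero ℓ := ⟨hℓ.ne_zero⟩
  have := ES.charP_residueField hp.out (CPlace.ofEquiv Φ)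
  obtain ⟨M, hM0, hM, hΓ, haux⟩ := exists_levels (L := L) hp2 hLp
  obtain ⟨c, hc, hcC⟩ := exists_series_root hv hcQ
  have hheck : heckeChar (L * p) hℓ (cv p 1 z : Gamma0 (L * p) →* ℂˣ) =
      (cv p 1 z : Gamma0 (L * p) →* ℂˣ) ^ b := by
    rw [← cv_matT_char, PSEMI.cv_eq_of_cgr hb, cv_natCast_smul, SubgroupClass.coe_pow]
  -- the series of the transfer
  have hT := Toric.isTwist_transForm hℓN hv
  obtain ⟨d, hd⟩ : ∃ d, HasExp 1 (Toric.transForm hℓN 2 v) d :=
    ⟨_, ES.hasExp_one_twist (goodLevel_Gamma0 (L * p)).T_mem (by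
      rw [hheck]; exact fun γ hγ => by rw [MonoidHom.pow_apply, (cv p 1 z).2.2 γ hγ, one_pow]) hT⟩
  have hser : PowerSeries.expand ℓ (NeZero.ne ℓ) d = Toric.shiftSer ℓ (zetaC ℓ) c := by
    rw [Toric.shiftSer_eq]
    exact (hasExp_widen (NeZero.ne ℓ) hd).series_unique (hasExp_transferT hℓN 2 hc)
  set κ : ℂ := C * C ^ ℓ
  have hrC : ∀ x : ℂ, PowerSeries.rescale x (PowerSeries.C C) = PowerSeries.C C := fun x => by
    ext e
    rcases eq_or_ne e 0 with rfl | he <;>
      simp [PowerSeries.coeff_rescale, PowerSeries.coeff_C, *]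
  have hshiftC : Toric.shiftSer ℓ (zetaC ℓ) (PowerSeries.C C) = PowerSeries.C κ := by
    simp only [Toric.shiftSer, PowerSeries.expand_C, hrC, Finset.prod_const, Finset.card_univ,
      ZMod.card, κ, map_mul, map_pow]
  set U : PowerSeries (CPlace.ofEquiv Φ).ring :=
    PowerSeries.mk fun e =>
      PowerSeries.coeff (ℓ * e) (Toric.shiftSer ℓ (Toric.zetaP (CPlace.ofEquiv Φ) ℓ) cQ)
  have hsh :
      (Toric.shiftSer ℓ (Toric.zetaP (CPlace.ofEquiv Φ) ℓ) cQ).map (CPlace.ofEquiv Φ).ring.subtype =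
      PowerSeries.expand ℓ (NeZero.ne ℓ) (PowerSeries.C κ * d ^ p) := by
    rw [Toric.map_shiftSer, hcC,
      show (CPlace.ofEquiv Φ).ring.subtype (Toric.zetaP (CPlace.ofEquiv Φ) ℓ) = zetaC ℓ from rfl,
      Toric.shiftSer_mul, Toric.shiftSer_pow, hshiftC, ← hser,
      map_mul (PowerSeries.expand ℓ (NeZero.ne ℓ)), map_pow (PowerSeries.expand ℓ (NeZero.ne ℓ)),
      PowerSeries.expand_C]
  have hU : U.map (CPlace.ofEquiv Φ).ring.subtype = PowerSeries.C κ * d ^ p := by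
    ext e
    have h := congrArg (PowerSeries.coeff (ℓ * e)) hsh
    rw [PowerSeries.coeff_expand_mul, PowerSeries.coeff_map] at h
    rw [PowerSeries.coeff_map, PowerSeries.coeff_mk, h]
  have hUs : PowerSeries.expand ℓ (NeZero.ne ℓ) U =
      Toric.shiftSer ℓ (Toric.zetaP (CPlace.ofEquiv Φ) ℓ) cQ :=
    PowerSeries.map_injective (CPlace.ofEquiv Φ).ring.subtype Subtype.val_injective
      (by rw [PowerSeries.map_expand, hU, hsh])
  set A := U.map (CPlace.ofEquiv Φ).res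
  set B := cQ.map (CPlace.ofEquiv Φ).res with hB
  set ζ := (CPlace.ofEquiv Φ).res (Toric.zetaP (CPlace.ofEquiv Φ) ℓ)
  have hAB : PowerSeries.expand ℓ (NeZero.ne ℓ) A = Toric.shiftSer ℓ ζ B := by
    rw [← PowerSeries.map_expand, hUs, Toric.map_shiftSer]
  -- the form with trivial multiplier
  set m := b * (p - 1)
  have hw : IsTwist (Gamma0 (L * p)) ((2 * (2 * (ℓ + 1) + m * 2) : ℕ) : ℤ) 1
      (Toric.transForm hℓN 2 v * v ^ m) := by
    convert hT.mul (hv.pow m) using 1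
    · push_cast; ring
    · rw [hheck, ← pow_add (cv p 1 z : Gamma0 (L * p) →* ℂˣ), ← SubgroupClass.coe_pow,
        show b + m = p ^ 1 * b by
          obtain ⟨t, ht⟩ : ∃ t, p = t + 1 := ⟨p - 1, by have := hp.out.one_le; omega⟩
          simp only [m, ht, Nat.add_sub_cancel, pow_one]; ring,
        pow_mul, show cv p 1 z ^ (p ^ 1) = 1 from Subtype.ext (cv p 1 z).2.1, one_pow]
      rfl
  set X := U * cQ ^ m with hXdef
  have hX : X.map (CPlace.ofEquiv Φ).ring.subtype =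
      PowerSeries.C (κ * C ^ m) * (d * c ^ m) ^ p := by
    rw [hXdef, map_mul, map_pow, hU, hcC]
    simp only [κ, map_mul, map_pow]
    ring
  have hθ : thetaSer (HahnSeries.ofPowerSeries ℤ _ (A * B ^ m)) = 0 := by
    rw [thetaSer_ofPowerSeries,
      show A * B ^ m = X.map (CPlace.ofEquiv Φ).res by rw [hXdef, map_mul, map_pow],
      ← map_zero (HahnSeries.ofPowerSeries ℤ (IsLocalRing.ResidueField (CPlace.ofEquiv Φ).ring))]
    congr 1
    ext e
    rw [PowerSeries.coeff_mk, map_zero, PowerSeries.coeff_map]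
    by_cases he : p ∣ e
    · rw [(CharP.cast_eq_zero_iff _ p e).2 he, zero_mul]
    · rw [res_eq_zero_of_trivChar (K := stableCoeffs Φ) hM hΓ haux hw (hd.mul (hc.pow m)) hX he,
        mul_zero]
  -- logarithmic derivatives
  have hζ : ζ ^ ℓ = 1 := by
    rw [← map_pow, show Toric.zetaP (CPlace.ofEquiv Φ) ℓ ^ ℓ = 1 from
      Subtype.ext (ES.zetaC_isPrimitiveRoot ℓ).pow_eq_one, map_one]
  have hζ0 : ζ ≠ 0 := Toric.res_zetaP_ne_zero (CPlace.ofEquiv Φ) ℓ
  have hA0 : A ≠ 0 := fun h => by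
    rw [h, map_zero] at hAB
    exact Toric.shiftSer_ne_zero ℓ hζ0 hcQ0 hAB.symm
  have hAL : HahnSeries.ofPowerSeries ℤ (IsLocalRing.ResidueField (CPlace.ofEquiv Φ).ring) A ≠ 0 :=
    (map_ne_zero_iff _ HahnSeries.ofPowerSeries_injective).2 hA0
  have hBL : HahnSeries.ofPowerSeries ℤ (IsLocalRing.ResidueField (CPlace.ofEquiv Φ).ring) B ≠ 0 :=
    (map_ne_zero_iff _ HahnSeries.ofPowerSeries_injective).2 hcQ0
  have hlog : logTheta (HahnSeries.ofPowerSeries ℤ _ A) +
      (m : LaurentSeries (IsLocalRing.ResidueField (CPlace.ofEquiv Φ).ring)) *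
        logTheta (HahnSeries.ofPowerSeries ℤ _ B) = 0 := by
    rw [← logTheta_pow hBL, ← logTheta_mul hAL (pow_ne_zero m hBL), ← map_pow, ← map_mul,
      logTheta, hθ, zero_div]
  have hℓk : (ℓ : IsLocalRing.ResidueField (CPlace.ofEquiv Φ).ring) ≠ 0 := fun h0 => hℓN (by
    rw [(Nat.prime_dvd_prime_iff_eq hp.out hℓ).1 ((CharP.cast_eq_zero_iff _ p ℓ).1 h0)]
    exact dvd_mul_left ℓ L)
  have hcoef := congrArg
    (fun s : LaurentSeries (IsLocalRing.ResidueField (CPlace.ofEquiv Φ).ring) => s.coeff n) hlog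
  simp only [HahnSeries.coeff_add, coeff_natCast_mul, HahnSeries.coeff_zero,
    logTheta_shiftSer ℓ hℓk hζ hcQ0 hAB n] at hcoef
  have hm : (m : IsLocalRing.ResidueField (CPlace.ofEquiv Φ).ring) = -b := by
    rw [Nat.cast_mul, Nat.cast_sub hp.out.one_le, natCast_residue_eq_zero, Nat.cast_one, zero_sub,
      mul_neg, mul_one]
  rw [hm] at hcoef
  change heckeC ℓ (logTheta (HahnSeries.ofPowerSeries ℤ _ B)) n =
    (b : IsLocalRing.ResidueField (CPlace.ofEquiv Φ).ring) *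
      (logTheta (HahnSeries.ofPowerSeries ℤ _ B)).coeff n
  linear_combination hcoef

include hp2 hLp hv hcQ hcQ0 in
/-- **A vanishing logarithmic derivative makes the class trivial at `∞`.** -/
theorem trivVec_of_log_zero (hv0 : v ≠ 0) (a : ℤ_[p]) (ha : a * a = 1)
    (hU : Cgr 1 (matU p (L * p) *ᵥ z) (a • z))
    (hG : thetaSer (HahnSeries.ofPowerSeries ℤ _ (cQ.map (CPlace.ofEquiv Φ).res)) /
      HahnSeries.ofPowerSeries ℤ _ (cQ.map (CPlace.ofEquiv Φ).res) = 0) :
    TrivVec (stableCoeffs Φ) 1 z := by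
  set K := stableCoeffs Φ
  have := ES.charP_residueField hp.out (CPlace.ofEquiv Φ)
  obtain ⟨M, hM0, hM, hΓ, haux⟩ := exists_levels (L := L) hp2 hLp
  obtain ⟨c, hc, hcC⟩ := exists_series_root hv hcQ
  have hθ : thetaSer (HahnSeries.ofPowerSeries ℤ _ (cQ.map (CPlace.ofEquiv Φ).res)) = 0 := by
    rw [div_eq_zero_iff] at hG
    exact hG.resolve_right ((map_ne_zero_iff _ HahnSeries.ofPowerSeries_injective).2 hcQ0)
  have hsupp : ∀ e : ℕ, ¬ p ∣ e →
      (CPlace.ofEquiv Φ).res (PowerSeries.coeff e cQ) = 0 := fun e he => by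
    have h := congrArg (fun s : LaurentSeries (IsLocalRing.ResidueField (CPlace.ofEquiv Φ).ring) =>
      s.coeff (e : ℤ)) hθ
    simp only [coeff_thetaSer, HahnSeries.ofPowerSeries_apply_coeff, PowerSeries.coeff_map,
      HahnSeries.coeff_zero, mul_eq_zero, Int.cast_natCast] at h
    exact h.resolve_left fun h0 => he ((CharP.cast_eq_zero_iff _ p e).1 h0)
  obtain ⟨α, hα, hcl⟩ := PSEMI.exists_isClass_of_form (K := K) (n := p) hM hΓ haux
    (fun γ _ => by
      rw [← MonoidHom.pow_apply, show (cv p 1 z : Gamma0 (L * p) →* ℂˣ) ^ p = 1 by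
        have h := (cv p 1 z).2.1
        simpa only [pow_one] using h]
      rfl)
    (cv p 1 z).2.2 hv hv0 (HasLExp.of_exp hc)
  set y := HahnSeries.C α * HahnSeries.ofPowerSeries ℤ ℂ c ^ p
  have hXy : HahnSeries.ofPowerSeries ℤ ℂ (cQ.map (CPlace.ofEquiv Φ).ring.subtype) =
      HahnSeries.C (C / α) * y := by
    rw [hcC, map_mul, map_pow, HahnSeries.ofPowerSeries_C, ← mul_assoc, ← map_mul,
      div_mul_cancel₀ _ hα]
  have hu := mem_ring_of_nice (SerIn.ofPowerSeries cQ) hcl.1 hXy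
  have hu0 : rd (P := CPlace.ofEquiv Φ) ⟨C / α, hu⟩ ≠ 0 := fun h0 =>
    hcQ0 (PowerSeries.ext fun e => by
    rw [map_zero, PowerSeries.coeff_map]
    refine res_eq_zero_of_red ?_
    rw [hXy, PSEMI.red_mul (SerIn.C hu) hcl.1.serIn, PSEMI.red_C hu, h0, map_zero, zero_mul,
      HahnSeries.coeff_zero])
  obtain ⟨w, hw, hred⟩ := TwoP.exists_nice_root hcl.1 fun k hk => by
    have hk' : (red (P := CPlace.ofEquiv Φ)
        (HahnSeries.ofPowerSeries ℤ ℂ (cQ.map (CPlace.ofEquiv Φ).ring.subtype))).coeff k = 0 := by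
      rcases le_or_gt 0 k with h | h
      · lift k to ℕ using h
        exact red_coeff_of_res (hsupp k fun hd => hk (Int.natCast_dvd_natCast.2 hd))
      · rw [PSEMI.coeff_red (SerIn.ofPowerSeries cQ), PSEMI.rd_eq_zero_iff]
        show (CPlace.ofEquiv Φ).abv ((HahnSeries.ofPowerSeries ℤ ℂ _).coeff k) < 1
        rw [ModularCurve.ofPowerSeries_coeff_of_neg _ h, map_zero]
        exact one_pos
    rw [hXy, PSEMI.red_mul (SerIn.C hu) hcl.1.serIn, PSEMI.red_C hu, HahnSeries.C_apply,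
      HahnSeries.coeff_single_mul, sub_zero] at hk'
    exact (mul_eq_zero.mp hk').resolve_left hu0
  have hpN : p ∣ L * p := dvd_mul_left p L
  obtain ⟨J, hJ⟩ := TwoP.exists_triv_opIter hM hΓ haux (transferDataU hpN) (fun _ => rfl)
    ⟨(cv p 1 z : Gamma0 (L * p) →* ℂˣ), by
      have h := (cv p 1 z).2
      simpa only [pow_one] using h⟩ hcl hw hred
  have hT : TrivVec K 1 (matU p (L * p) ^ (2 * J) *ᵥ z) := by
    rw [PSEMI.trivVec_one_iff, PSEMI.cv_matU_pow (hpN := hpN)]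
    exact hJ (2 * J) (by omega)
  refine hT.of_cgr ?_
  have h2 : Cgr 1 (matU p (L * p) ^ 2 *ᵥ z) z := by
    rw [pow_two, ← Matrix.mulVec_mulVec]
    refine (Cgr.mulVec hU _).trans ?_
    rw [Matrix.mulVec_smul]
    refine (PSEMI.cgr_smul hU a).trans ?_
    rw [smul_smul, ha, one_smul]
    exact fun i => by simp
  clear hT hJ
  induction J with
  | zero => rw [mul_zero, pow_zero, Matrix.one_mulVec]; exact fun i => by simp
  | succ J ih =>
    rw [Nat.mul_succ, pow_add, ← Matrix.mulVec_mulVec]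
    exact (Cgr.mulVec h2 _).trans ih

end Classes

end FermatAgent.BAD.AtP

end
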