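import Fermat.Agent.BAD.AtP.Class.Series
import Fermat.Agent.BAD.Lift.Residue

/-!
# Vanishing of the logarithmic derivative of a residual eigen series

A residual series whose power, up to Eisenstein factors, is the reduction of two forms with
`p`-divisible divisors away from the cusps, respectively at the cusps, has vanishing logarithmic
derivative as soon as it is an eigen series of a non Eisenstein system absent at level `L`.
-/

set_option autoImplicit false

open AlgebraicCurve
open CongruenceSubgroup (Gamma0)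
open ModularCurve (coeffMap jqModC modularFunctionFieldFullC)
open UpperHalfPlane hiding I
open scoped MatrixGroups

noncomputable section

namespace FermatAgent.BAD.AtP

open FermatAgent.ES (HasExp CPlace IsTwist)
open FermatAgent.Curve (HasLoc qw jField)
open FermatAgent.Curve.Red (jFullC)
open FermatAgent.BAD.Lift (toC divDisc deltaPS map_deltaPS deltaPS_ne_zero resIncl)
open FermatAgent.BAD (thetaSer)

attribute [local instance] Mazur.embAlg

local notation "Qb" => AlgebraicClosure ℚ

theorem logTheta_coeffMap {k k' : Type*} [Field k] [Field k'] (f : k →+* k')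
    (s : LaurentSeries k) : logTheta (coeffMap f s) = coeffMap f (logTheta s) := by
  rw [logTheta, logTheta, map_div₀, coeffMap_thetaSer]

/-- The Hecke operator of weight two commutes with multiplication by an integer. -/
theorem heckeC_natCast_mul {k : Type*} [Field k] (ℓ m : ℕ) (s : LaurentSeries k) (n : ℤ) :
    heckeC ℓ ((m : LaurentSeries k) * s) n = (m : k) * heckeC ℓ s n := by
  simp only [heckeC, coeff_natCast_mul]
  split_ifs <;> ring

theorem natCast_eq_of_char {k : Type*} [Ring k] (p : ℕ) [CharP k p] {a b : ℕ}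
    (h : (a : k) = (b : k)) : (a : ZMod p) = (b : ZMod p) :=
  (ZMod.natCast_eq_natCast_iff a b p).2 ((CharP.natCast_eq_natCast k p).1 h)

section

variable {p : ℕ} [Fact p.Prime] (P : CPlace p)

set_option hygiene false in
local notation "kA" => IsLocalRing.ResidueField (CPlace.algVal P)
set_option hygiene false in
local notation "kP" => IsLocalRing.ResidueField (CPlace.ring P)

omit [Fact (Nat.Prime p)] in
theorem isLocalHom_resIncl : IsLocalHom (resIncl P) := ⟨fun a h => by
  by_contra hu
  have h0 : IsLocalRing.residue P.algVal a = 0 := by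
    rwa [IsLocalRing.residue_eq_zero_iff, IsLocalRing.mem_maximalIdeal, mem_nonunits_iff]
  have h1 := (Lift.res_resIncl_eq_zero_iff P).2 h0
  rw [IsLocalRing.residue_eq_zero_iff, IsLocalRing.mem_maximalIdeal, mem_nonunits_iff] at h1
  exact h1 h⟩

/-- The inclusion of the residue field of the algebraic numbers in that of the place. -/
def resField : kA →+* kP :=
  haveI := isLocalHom_resIncl P
  IsLocalRing.ResidueField.map (resIncl P)

omit [Fact (Nat.Prime p)] in
theorem map_resField_map_residue (c : PowerSeries P.algVal) :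
    (c.map (IsLocalRing.residue P.algVal)).map (resField P) =
      (c.map (resIncl P)).map P.res := by
  ext i
  simp only [PowerSeries.coeff_map]
  rfl

variable {L : ℕ} [NeZero L]

/-- The residual series of a form at `∞`. -/
def resSer (c : PowerSeries P.ring) : LaurentSeries kP :=
  HahnSeries.ofPowerSeries ℤ _ (c.map P.res)

variable (L)

/-- The residual function of a form has orders divisible by `p` at the places where `j` is as
prescribed. -/
def DivAt (F : ℍ → ℂ) (r : ℕ) (cond : ℤ → Prop) : Prop :=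
  ∀ (sA : LaurentSeries P.algVal) (gb : modularFunctionFieldFullC kA L),
    coeffMap P.algVal.subtype sA ∈ jField Qb L →
    HasLoc (qw 1) (divDisc F r) (toC P sA) →
    coeffMap (IsLocalRing.residue P.algVal) sA = gb → gb ≠ 0 →
    ∀ Q : Place kA (modularFunctionFieldFullC kA L),
      cond (Q.ord (jFullC kA L)) → (p : ℤ) ∣ Q.ord gb

/-- A form of level `L` whose residual series at `∞` is a given one times an auxiliary factor. -/
structure LevelForm (s : LaurentSeries kP) where
  /-- The weight divided by twelve. -/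
  wt : ℕ
  /-- The form. -/
  fn : ℍ → ℂ
  /-- The expansion at `∞`. -/
  ser : PowerSeries P.ring
  /-- The auxiliary factor. -/
  factor : LaurentSeries kP
  twist : IsTwist (Gamma0 L) ((12 * wt : ℕ) : ℤ) 1 fn
  exp : HasExp 1 fn (ser.map P.ring.subtype)
  alg : ∀ e, IsAlgebraic ℚ ((PowerSeries.coeff e ser : P.ring) : ℂ)
  factor_ne : factor ≠ 0
  res_eq : resSer P ser = s * factor

variable {L}

/-- The logarithmic derivative of the residual function of a form, in the field of the place. -/
theorem exists_residual_log (hpL : ¬ p ∣ L) {r : ℕ} {F : ℍ → ℂ}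
    (hF : IsTwist (Gamma0 L) ((12 * r : ℕ) : ℤ) 1 F) {c : PowerSeries P.ring}
    (hc : HasExp 1 F (c.map P.ring.subtype))
    (halg : ∀ e, IsAlgebraic ℚ ((PowerSeries.coeff e c : P.ring) : ℂ))
    {t : LaurentSeries kP} (ht : t ≠ 0)
    (hs : HahnSeries.ofPowerSeries ℤ kP (c.map P.res) = t) :
    ∃ (sA : LaurentSeries P.algVal) (gb : modularFunctionFieldFullC kA L),
      coeffMap P.algVal.subtype sA ∈ jField Qb L ∧
      HasLoc (qw 1) (divDisc F r) (toC P sA) ∧
      coeffMap (IsLocalRing.residue P.algVal) sA = gb ∧ gb ≠ 0 ∧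
      coeffMap (resField P) (logTheta (gb : LaurentSeries kA)) = logTheta t -
        (r : LaurentSeries kP) *
          logTheta (HahnSeries.ofPowerSeries ℤ kP (deltaPS kP)) := by
  have hcres : c.map P.res ≠ 0 := fun h => ht (by rw [← hs, h, map_zero])
  obtain ⟨sA, cA, gb, hsA, hloc, hcA, hrel, hgb, hgb0⟩ :=
    Lift.exists_residual_function P hpL hF hc halg hcres
  refine ⟨sA, gb, hsA, hloc, hgb, hgb0, ?_⟩
  have h1 := congrArg (fun s => coeffMap (resField P)
    (coeffMap (IsLocalRing.residue P.algVal) s)) hrel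
  simp only [map_mul, map_pow, hgb, ModularCurve.coeffMap_ofPowerSeries,
    map_resField_map_residue, hcA, map_deltaPS, hs] at h1
  have hd : HahnSeries.ofPowerSeries ℤ kP (deltaPS kP) ≠ 0 :=
    (map_ne_zero_iff _ HahnSeries.ofPowerSeries_injective).2 (deltaPS_ne_zero _)
  have hg : coeffMap (resField P) (gb : LaurentSeries kA) ≠ 0 :=
    (_root_.map_ne_zero _).2 fun h => hgb0 (Subtype.ext h)
  rw [← logTheta_coeffMap, eq_sub_iff_add_eq, ← logTheta_pow hd r,
    ← logTheta_mul hg (pow_ne_zero r hd), h1]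

/-- **The logarithmic derivative of the residual eigen series vanishes.** -/
theorem logTheta_class_eq_zero (hLp : L.Coprime p) {E : ℕ} {b : ℕ → ℕ} (hlow : NoLow p L E b)
    {l0 : ℕ} (hl0 : l0.Prime) (hl0S : ¬ l0 ∣ E * (L * p))
    (hl0b : (b l0 : ZMod p) ≠ (l0 : ZMod p) + 1)
    {s0 : LaurentSeries kP} (hs0 : s0 ≠ 0)
    (heig : ∀ l : ℕ, l.Prime → ¬ l ∣ E * (L * p) → ∀ n : ℤ,
      heckeC l (logTheta s0) n = (b l : kP) * (logTheta s0).coeff n)
    {k0 : ℕ} (hk0 : (k0 : kP) ≠ 0)
    (F1 : LevelForm P L (s0 ^ k0)) (F2 : LevelForm P L (s0 ^ k0)) (hr2 : p ∣ F2.wt)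
    (hd1e : ∀ n : ℤ, heckeC l0 (logTheta F1.factor) n =
      ((l0 : kP) + 1) * (logTheta F1.factor).coeff n)
    (hd2e : logTheta F2.factor = 0)
    (hdelta : ∀ n : ℤ, heckeC l0 (logTheta (HahnSeries.ofPowerSeries ℤ kP (deltaPS kP))) n =
      ((l0 : kP) + 1) * (logTheta (HahnSeries.ofPowerSeries ℤ kP (deltaPS kP))).coeff n)
    (hfin : DivAt P L F1.fn F1.wt (fun o => 0 ≤ o))
    (hcusp : DivAt P L F2.fn F2.wt (fun o => o < 0)) :
    logTheta s0 = 0 := by
  have hA := P.algVal_liesOverPrime
  have hpL : ¬ p ∣ L := Lift.not_dvd_of_coprime hLp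
  have := isAlgClosed_residueField P.algVal
  have := Curve.Red.isFF_fullC hA hpL
  obtain ⟨m⟩ := exists_modRed hA hpL
  have hpkA : (p : kA) = 0 := natCast_prime_residue hA
  have : CharP kA p := (CharP.charP_iff_prime_eq_zero Fact.out).mpr hpkA
  have hpkP : (p : kP) = 0 := by rw [← map_natCast (resField P) p, hpkA, map_zero]
  set ι := resField P
  set G := logTheta s0
  obtain ⟨r1, F1, c1, d1, hF1, hc1, halg1, hd1, hs1⟩ := F1
  obtain ⟨r2, F2, c2, d2, hF2, hc2, halg2, hd2, hs2⟩ := F2
  obtain ⟨sA1, gb1, hsA1, hloc1, hgb1, hgb10, hlog1⟩ :=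
    exists_residual_log P hpL hF1 hc1 halg1 (mul_ne_zero (pow_ne_zero k0 hs0) hd1) hs1
  obtain ⟨sA2, gb2, hsA2, hloc2, hgb2, hgb20, hlog2⟩ :=
    exists_residual_log P hpL hF2 hc2 halg2 (mul_ne_zero (pow_ne_zero k0 hs0) hd2) hs2
  obtain ⟨v1, hv1, -⟩ := m.exists_hasLog hpkA hgb10
  obtain ⟨v2, hv2, -⟩ := m.exists_hasLog hpkA hgb20
  have hlt : ∀ (gb v : modularFunctionFieldFullC kA L), gb ≠ 0 → HasLog gb v →
      logTheta (gb : LaurentSeries kA) = (v : LaurentSeries kA) * thetaSer (jqModC kA) :=
    fun gb v hgb hv => by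
      rw [logTheta, ← hv, mul_div_cancel_right₀ _ fun h => hgb (Subtype.ext h)]
  rw [hlt gb1 v1 hgb10 hv1, logTheta_mul (pow_ne_zero k0 hs0) hd1, logTheta_pow hs0] at hlog1
  rw [hlt gb2 v2 hgb20 hv2, logTheta_mul (pow_ne_zero k0 hs0) hd2, logTheta_pow hs0, hd2e,
    add_zero, show (r2 : LaurentSeries kP) = 0 by
      obtain ⟨t, rfl⟩ := hr2
      rw [Nat.cast_mul, ← map_natCast (HahnSeries.C (Γ := ℤ) (R := kP)) p, hpkP, map_zero,
        zero_mul], zero_mul, sub_zero] at hlog2
  set G1 := (v1 : LaurentSeries kA) * thetaSer (jqModC kA)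
  set G2 := (v2 : LaurentSeries kA) * thetaSer (jqModC kA)
  have hinj : Function.Injective ι := ι.injective
  have hredx : m.S.red m.x = jFullC kA L := Subtype.ext m.red_x
  have heig2 : ∀ l : ℕ, l.Prime → ¬ l ∣ E * (L * p) → ∀ n : ℤ,
      heckeC l G2 n = (b l : kA) * G2.coeff n := fun l hl hlS n => hinj (by
    rw [← heckeC_coeffMap, hlog2, map_mul, map_natCast, ← ModularCurve.coeffMap_coeff, hlog2,
      heckeC_natCast_mul, coeff_natCast_mul, heig l hl hlS n, mul_left_comm])
  have hdiff : ∀ n : ℤ, heckeC l0 (G2 - G1) n = ((l0 : kA) + 1) * (G2 - G1).coeff n :=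
    fun n => hinj (by
      rw [← heckeC_coeffMap, map_mul, map_add, map_natCast, map_one,
        ← ModularCurve.coeffMap_coeff, map_sub, hlog1, hlog2,
        show (k0 : LaurentSeries kP) * G - ((k0 : LaurentSeries kP) * G + logTheta d1 -
            (r1 : LaurentSeries kP) * logTheta (HahnSeries.ofPowerSeries ℤ kP (deltaPS kP))) =
          (r1 : LaurentSeries kP) * logTheta (HahnSeries.ofPowerSeries ℤ kP (deltaPS kP)) -
            logTheta d1 by ring,
        heckeC_sub, heckeC_natCast_mul, hdelta, hd1e, HahnSeries.coeff_sub, coeff_natCast_mul]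
      ring)
  have hb0 : (b l0 : kA) ≠ (l0 : kA) + 1 := fun h => hl0b (by
    have h' := natCast_eq_of_char p (k := kA) (a := b l0) (b := l0 + 1) (by push_cast; exact h)
    rw [h']
    push_cast
    rfl)
  have hv20 : v2 = 0 := m.log_eq_zero hA hlow hl0 hl0S hb0 hgb10 hgb20 hv1 hv2
    (fun Q hQ => hfin sA1 gb1 hsA1 hloc1 hgb1 hgb10 Q (hredx ▸ hQ))
    (fun Q hQ => hcusp sA2 gb2 hsA2 hloc2 hgb2 hgb20 Q (hredx ▸ hQ)) heig2 hdiff
  have hG2 : G2 = 0 := by simp only [G2, hv20, ZeroMemClass.coe_zero, zero_mul]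
  rw [hG2, map_zero] at hlog2
  refine HahnSeries.ext (funext fun n => ?_)
  have h2 := congrArg (fun s : LaurentSeries kP => s.coeff n) hlog2.symm
  simp only [coeff_natCast_mul, HahnSeries.coeff_zero, mul_eq_zero] at h2
  exact (h2.resolve_left hk0).trans HahnSeries.coeff_zero.symm

end

end FermatAgent.BAD.AtP

end
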