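import Fermat.Agent.BAD.AtP.Curve.EigenRed
import Fermat.Agent.BAD.Toric.TransferSer

/-!
# Logarithmic derivatives of shifted series

The logarithmic derivative of a series whose dilation is the shifted product of a series is the
Hecke transform of weight two of the logarithmic derivative.
-/

set_option autoImplicit false

open FermatAgent.BAD (thetaSer coeff_thetaSer thetaSer_mul thetaSer_C thetaSer_expandL expandL
  expandL_coeff_mul expandL_coeff_of_not_dvd expandL_ofPowerSeries)

noncomputable section

namespace FermatAgent.BAD.AtP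

section Twist

variable {k : Type*} [Field k]

/-- The substitution `q ↦ z q` on Laurent series. -/
def scaleL {z : k} (hz : z ≠ 0) : LaurentSeries k →+* LaurentSeries k where
  toFun s :=
    { coeff := fun n => z ^ n * s.coeff n
      isPWO_support' := s.isPWO_support.mono fun n hn => right_ne_zero_of_mul hn }
  map_zero' := by ext n; simp
  map_add' s t := by ext n; simp [mul_add]
  map_one' := by
    ext n
    rcases eq_or_ne n 0 with rfl | hn <;> simp [HahnSeries.coeff_one, *]
  map_mul' s t := by
    ext n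
    show z ^ n * (s * t).coeff n = _
    rw [HahnSeries.coeff_mul, HahnSeries.coeff_mul, Finset.mul_sum]
    refine Finset.sum_congr ?_ fun x hx => ?_
    · ext x
      simp [zpow_ne_zero _ hz]
    · rw [Finset.mem_antidiagonal] at hx
      rw [← hx.2.2, zpow_add₀ hz]
      ring

theorem coeff_scaleL {z : k} (hz : z ≠ 0) (s : LaurentSeries k) (n : ℤ) :
    (scaleL hz s).coeff n = z ^ n * s.coeff n := rfl

theorem ofPowerSeries_rescale {z : k} (hz : z ≠ 0) (d : PowerSeries k) :
    HahnSeries.ofPowerSeries ℤ k (PowerSeries.rescale z d) =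
      scaleL hz (HahnSeries.ofPowerSeries ℤ k d) := by
  ext n
  rw [coeff_scaleL]
  rcases le_or_gt 0 n with hn | hn
  · lift n to ℕ using hn
    rw [HahnSeries.ofPowerSeries_apply_coeff, HahnSeries.ofPowerSeries_apply_coeff,
      PowerSeries.coeff_rescale, zpow_natCast]
  · rw [ModularCurve.ofPowerSeries_coeff_of_neg _ hn, ModularCurve.ofPowerSeries_coeff_of_neg _ hn,
      mul_zero]

/-- The logarithmic derivative `θ s / s`. -/
def logTheta (s : LaurentSeries k) : LaurentSeries k := thetaSer s / s

/-- The logarithmic derivative of `1` is zero. -/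
theorem logTheta_one : logTheta (1 : LaurentSeries k) = 0 := by
  rw [logTheta, ← map_one (HahnSeries.C (Γ := ℤ) (R := k)), thetaSer_C, zero_div]

/-- The logarithmic derivative of a product of non-zero series is the sum of the logarithmic
derivatives. -/
theorem logTheta_mul {s t : LaurentSeries k} (hs : s ≠ 0) (ht : t ≠ 0) :
    logTheta (s * t) = logTheta s + logTheta t := by
  rw [logTheta, logTheta, logTheta, thetaSer_mul, div_add_div _ _ hs ht]

/-- The logarithmic derivative of an `m`-th power is `m` times the logarithmic derivative. -/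
theorem logTheta_pow {s : LaurentSeries k} (hs : s ≠ 0) (m : ℕ) :
    logTheta (s ^ m) = (m : LaurentSeries k) * logTheta s := by
  induction m with
  | zero => rw [pow_zero, logTheta_one, Nat.cast_zero, zero_mul]
  | succ m ih => rw [pow_succ, logTheta_mul (pow_ne_zero m hs) hs, ih]; push_cast; ring

theorem logTheta_prod {ι : Type*} (A : Finset ι) {f : ι → LaurentSeries k} (h : ∀ i, f i ≠ 0) :
    logTheta (∏ i ∈ A, f i) = ∑ i ∈ A, logTheta (f i) := by
  classical
  induction A using Finset.induction_on with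
  | empty => rw [Finset.prod_empty, Finset.sum_empty, logTheta_one]
  | insert a A ha ih =>
    rw [Finset.prod_insert ha, Finset.sum_insert ha,
      logTheta_mul (h a) (Finset.prod_ne_zero_iff.2 fun i _ => h i), ih]

theorem logTheta_scaleL {z : k} (hz : z ≠ 0) (s : LaurentSeries k) :
    logTheta (scaleL hz s) = scaleL hz (logTheta s) := by
  rw [logTheta, logTheta, map_div₀]
  congr 1
  ext n
  rw [coeff_thetaSer, coeff_scaleL, coeff_scaleL, coeff_thetaSer, mul_left_comm]

theorem logTheta_expandL (ℓ : ℕ) [NeZero ℓ] (s : LaurentSeries k) :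
    logTheta (expandL ℓ s) = (ℓ : LaurentSeries k) * expandL ℓ (logTheta s) := by
  rw [logTheta, logTheta, thetaSer_expandL, map_div₀, mul_div_assoc]

/-- The coefficients of an integral multiple of a Laurent series. -/
theorem coeff_natCast_mul (m : ℕ) (s : LaurentSeries k) (n : ℤ) :
    ((m : LaurentSeries k) * s).coeff n = (m : k) * s.coeff n := by
  rw [← map_natCast (HahnSeries.C (Γ := ℤ) (R := k)), HahnSeries.C_mul_eq_smul,
    HahnSeries.coeff_smul, smul_eq_mul]

/-- **The logarithmic derivative of a shifted series.** -/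
theorem logTheta_shiftSer (ℓ : ℕ) [NeZero ℓ] (hℓk : (ℓ : k) ≠ 0) {z : k} (hz : z ^ ℓ = 1)
    {A B : PowerSeries k} (hB : B ≠ 0)
    (h : PowerSeries.expand ℓ (NeZero.ne ℓ) A = Toric.shiftSer ℓ z B) (n : ℤ) :
    (logTheta (HahnSeries.ofPowerSeries ℤ k A)).coeff n =
      heckeC ℓ (logTheta (HahnSeries.ofPowerSeries ℤ k B)) n := by
  have hz0 : z ≠ 0 := fun h0 => by
    rw [h0, zero_pow (NeZero.ne ℓ)] at hz
    exact zero_ne_one hz
  set b := HahnSeries.ofPowerSeries ℤ k B
  set G := logTheta b
  have hb : b ≠ 0 := (map_ne_zero_iff _ HahnSeries.ofPowerSeries_injective).2 hB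
  have e := congrArg (HahnSeries.ofPowerSeries ℤ k) h
  rw [Toric.shiftSer, map_mul, map_prod, ← expandL_ofPowerSeries, ← expandL_ofPowerSeries,
    ← expandL_ofPowerSeries] at e
  simp only [ofPowerSeries_rescale (pow_ne_zero _ hz0)] at e
  have hne : expandL ℓ (expandL ℓ b) ≠ 0 := (map_ne_zero _).2 ((map_ne_zero _).2 hb)
  have hne' : ∀ j : ZMod ℓ, scaleL (pow_ne_zero j.val hz0) b ≠ 0 := fun j => (map_ne_zero _).2 hb
  have e' := congrArg logTheta e
  rw [logTheta_expandL, logTheta_mul hne (Finset.prod_ne_zero_iff.2 fun j _ => hne' j),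
    logTheta_prod _ hne', logTheta_expandL, logTheta_expandL, map_mul, map_natCast, ← mul_assoc]
    at e'
  simp only [logTheta_scaleL, ← Nat.cast_mul] at e'
  have e2 := congrArg (fun s : LaurentSeries k => s.coeff ((ℓ : ℤ) * n)) e'
  simp only [HahnSeries.coeff_add, coeff_natCast_mul, expandL_coeff_mul, HahnSeries.coeff_sum,
    coeff_scaleL] at e2
  have hsum : ∀ j : ZMod ℓ, (z ^ j.val) ^ ((ℓ : ℤ) * n) * G.coeff ((ℓ : ℤ) * n) =
      G.coeff ((ℓ : ℤ) * n) := fun j => by
    rw [zpow_mul, zpow_natCast, ← pow_mul, mul_comm j.val ℓ, pow_mul, hz, one_pow,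
      one_zpow, one_mul]
  simp only [G] at hsum
  simp only [hsum, Finset.sum_const, Finset.card_univ, ZMod.card, nsmul_eq_mul, Nat.cast_mul]
    at e2
  refine mul_left_cancel₀ hℓk (e2.trans ?_)
  simp only [heckeC, G]
  rw [mul_comm n (ℓ : ℤ)]
  by_cases hd : (ℓ : ℤ) ∣ n
  · obtain ⟨i, rfl⟩ := hd
    have hℓ0 : (ℓ : ℤ) ≠ 0 := Int.natCast_ne_zero.2 (NeZero.ne ℓ)
    rw [expandL_coeff_mul, if_pos (dvd_mul_right _ _), Int.mul_ediv_cancel_left _ hℓ0]
    ring
  · rw [expandL_coeff_of_not_dvd ℓ _ hd, if_neg hd, mul_zero, zero_add, add_zero]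

end Twist

end FermatAgent.BAD.AtP

end
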